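/-
Fermat/Agent/T1B/ESide6/Alpha.lean  (helper6)

Programme T1B (row 38), E-side, brick E44-ALPHA: "roots of inertia-fixed units are inertia-fixed".

Setting: a valued field `(K, v)`, `σ : K →+* K` inertia-like
(`hv : ∀ x, v (σ x) = v x`, `hr : ∀ x, v x ≤ 1 → v (σ x - x) < 1`).

* `eq_one_of_pow_eq_one`   : `z ^ n = 1`, `v (z - 1) < 1`, `v (n : K) = 1`  ⇒  `z = 1`;
* `fixed_of_pow_eq` (A2)   : `x ^ n = c`, `σ c = c`, `v c = 1`, `v (n : K) = 1`  ⇒  `σ x = x`;
* `fixed_of_sq_eq` (A1)    : `α ^ 2 = a`, `σ a = a`, `v a = 1`, `v 2 = 1`  ⇒  `σ α = α`;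
* `fixed_of_pow_eq_one` (A3) : `ζ ^ n = 1`, `v (n : K) = 1`  ⇒  `σ ζ = ζ`;
* `val_sub_lt_of_fixed` (A4) : `v x = v c`, `σ c = c`, `c ≠ 0`  ⇒  `v (σ x - x) < v x`;
* sign bookkeeping: `sq_eq_sq_fixed` (`α² = β²`, both square roots of a fixed unit are fixed),
  `fixed_neg`, `val_neg_one_sub`, `neg_one_ne_one_of_val_two` ...
-/
import Mathlib

set_option autoImplicit false

namespace Fermat.Agent.T1B.ESide6

variable {K : Type*} [Field K] {Γ₀ : Type*} [LinearOrderedCommGroupWithZero Γ₀]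
  (v : Valuation K Γ₀)

/-- `v (z ^ i - 1) < 1` as soon as `v (z - 1) < 1`. -/
theorem val_pow_sub_one_lt {z : K} (hz : v (z - 1) < 1) (i : ℕ) : v (z ^ i - 1) < 1 := by
  have hz1 : v z ≤ 1 := by
    have : z = (z - 1) + 1 := by ring
    rw [this]
    exact le_trans (v.map_add _ _) (max_le hz.le (by rw [v.map_one]))
  induction i with
  | zero => simp
  | succ i ih =>
    have e : z ^ (i + 1) - 1 = z * (z ^ i - 1) + (z - 1) := by ring
    rw [e]
    refine lt_of_le_of_lt (v.map_add _ _) (max_lt ?_ hz)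
    rw [v.map_mul]
    calc v z * v (z ^ i - 1) ≤ 1 * v (z ^ i - 1) := mul_le_mul_left hz1 _
      _ = v (z ^ i - 1) := one_mul _
      _ < 1 := ih

/-- The geometric sum `1 + z + ⋯ + z ^ (n-1)` is congruent to `n` modulo the maximal ideal. -/
theorem val_geomSum_sub_lt {z : K} (hz : v (z - 1) < 1) (n : ℕ) :
    v ((∑ i ∈ Finset.range n, z ^ i) - (n : K)) < 1 := by
  induction n with
  | zero => simp
  | succ n ih =>
    have e : (∑ i ∈ Finset.range (n + 1), z ^ i) - ((n + 1 : ℕ) : K) =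
        ((∑ i ∈ Finset.range n, z ^ i) - (n : K)) + (z ^ n - 1) := by
      rw [Finset.sum_range_succ]; push_cast; ring
    rw [e]
    exact lt_of_le_of_lt (v.map_add _ _) (max_lt ih (val_pow_sub_one_lt v hz n))

/-- An `n`-th root of unity congruent to `1` modulo the maximal ideal is `1`, if `n` is a unit. -/
theorem eq_one_of_pow_eq_one {z : K} {n : ℕ} (hzn : z ^ n = 1) (hz : v (z - 1) < 1)
    (hn : v (n : K) = 1) : z = 1 := by
  have hfac : (z - 1) * ∑ i ∈ Finset.range n, z ^ i = 0 := by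
    rw [mul_comm, geom_sum_mul, hzn, sub_self]
  have hsum : v (∑ i ∈ Finset.range n, z ^ i) = 1 := by
    have e : (∑ i ∈ Finset.range n, z ^ i) =
        (n : K) + ((∑ i ∈ Finset.range n, z ^ i) - (n : K)) := by ring
    rw [e, v.map_add_eq_of_lt_left (by rw [hn]; exact val_geomSum_sub_lt v hz n), hn]
  have hne : (∑ i ∈ Finset.range n, z ^ i) ≠ 0 := by
    intro h0
    rw [h0, v.map_zero] at hsum
    exact zero_ne_one hsum
  rcases mul_eq_zero.mp hfac with h | h
  · exact sub_eq_zero.mp h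
  · exact absurd h hne

variable (σ : K →+* K)

/-- **(A4)** If `v x = v c` with `c ≠ 0` fixed by `σ`, then `v (σ x - x) < v x`. -/
theorem val_sub_lt_of_fixed (hr : ∀ x, v x ≤ 1 → v (σ x - x) < 1)
    {x c : K} (hc : σ c = c) (hc0 : c ≠ 0) (hxc : v x = v c) : v (σ x - x) < v x := by
  have hpos : 0 < v c := by rw [Valuation.pos_iff]; exact hc0
  have h1 : v (x / c) ≤ 1 := by rw [map_div₀, hxc, div_self hpos.ne']
  have h2 := hr _ h1
  have h3 : σ (x / c) - x / c = (σ x - x) / c := by rw [map_div₀, hc, sub_div]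
  rw [h3, map_div₀, div_lt_one₀ hpos] at h2
  rw [hxc]; exact h2

/-- **(A2)** An `n`-th root of an inertia-fixed unit is inertia-fixed, if `n` is a unit. -/
theorem fixed_of_pow_eq (hr : ∀ x, v x ≤ 1 → v (σ x - x) < 1)
    {x c : K} {n : ℕ} (hxn : x ^ n = c) (hc : σ c = c) (hvc : v c = 1) (hn : v (n : K) = 1) :
    σ x = x := by
  have hn0 : n ≠ 0 := by
    rintro rfl
    rw [Nat.cast_zero, v.map_zero] at hn
    exact zero_ne_one hn
  have hvx : v x = 1 := by
    have h1 : v x ^ n = 1 := by rw [← v.map_pow, hxn, hvc]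
    exact (pow_eq_one_iff_of_nonneg zero_le hn0).mp h1
  have hx0 : x ≠ 0 := by
    intro h0
    rw [h0, v.map_zero] at hvx
    exact zero_ne_one hvx
  have hz : v (σ x / x - 1) < 1 := by
    have e : σ x / x - 1 = (σ x - x) / x := by field_simp
    rw [e, map_div₀, hvx, div_one]
    exact hr x hvx.le
  have hzn : (σ x / x) ^ n = 1 := by
    rw [div_pow, ← map_pow, hxn, hc, div_self]
    rw [← hxn]; exact pow_ne_zero n hx0
  have h1 := eq_one_of_pow_eq_one v hzn hz hn
  exact (div_eq_one_iff_eq hx0).mp h1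

/-- **(A1)** A square root of an inertia-fixed unit is inertia-fixed, if `2` is a unit. -/
theorem fixed_of_sq_eq (hr : ∀ x, v x ≤ 1 → v (σ x - x) < 1) (h2 : v (2 : K) = 1)
    {α a : K} (hα : α ^ 2 = a) (ha : σ a = a) (hva : v a = 1) : σ α = α :=
  fixed_of_pow_eq v σ hr hα ha hva (by exact_mod_cast h2)

/-- **(A3)** Roots of unity of order a unit are inertia-fixed. -/
theorem fixed_of_pow_eq_one (hr : ∀ x, v x ≤ 1 → v (σ x - x) < 1)
    {ζ : K} {n : ℕ} (hζ : ζ ^ n = 1) (hn : v (n : K) = 1) : σ ζ = ζ :=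
  fixed_of_pow_eq v σ hr hζ (map_one σ) v.map_one hn

/-! ### Sign bookkeeping -/

/-- The negative of a fixed element is fixed. -/
theorem fixed_neg {x : K} (hx : σ x = x) : σ (-x) = -x := by rw [map_neg, hx]

/-- `-1 ≠ 1` when `2` is a unit. -/
theorem neg_one_ne_one_of_val_two (h2 : v (2 : K) = 1) : (-1 : K) ≠ 1 := by
  intro h
  have : (2 : K) = 0 := by
    have e : (2 : K) = 1 - (-1) := by ring
    rw [e, h, sub_self]
  rw [this, v.map_zero] at h2
  exact zero_ne_one h2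

/-- `v (-1 - 1) = 1` when `2` is a unit: the two square roots of a unit are distinct modulo the
maximal ideal. -/
theorem val_neg_one_sub_one (h2 : v (2 : K) = 1) : v ((-1 : K) - 1) = 1 := by
  have e : (-1 : K) - 1 = -2 := by ring
  rw [e, v.map_neg, h2]

/-- Two square roots of the same element differ by a sign. -/
theorem eq_or_eq_neg_of_sq_eq {α β : K} (h : α ^ 2 = β ^ 2) : α = β ∨ α = -β :=
  sq_eq_sq_iff_eq_or_eq_neg.mp h

/-- The two square roots `α`, `-α` of a unit are distinct modulo the maximal ideal, when `2` is a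
unit: `v (α - (-α)) = 1`. -/
theorem val_sub_neg_self (h2 : v (2 : K) = 1) {α : K} (hα : v α = 1) : v (α - -α) = 1 := by
  have e : α - -α = 2 * α := by ring
  rw [e, v.map_mul, h2, hα, one_mul]

/-- Both square roots of an inertia-fixed unit are fixed; in particular `σ` cannot swap them. -/
theorem sq_roots_fixed (hr : ∀ x, v x ≤ 1 → v (σ x - x) < 1) (h2 : v (2 : K) = 1)
    {α a : K} (hα : α ^ 2 = a) (ha : σ a = a) (hva : v a = 1) :
    σ α = α ∧ σ (-α) = -α :=
  ⟨fixed_of_sq_eq v σ hr h2 hα ha hva, fixed_neg σ (fixed_of_sq_eq v σ hr h2 hα ha hva)⟩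

/-- If `β ^ 2 = α ^ 2 = a` for an inertia-fixed unit `a`, then `β` is fixed and `β = ± α`. -/
theorem fixed_of_sq_eq_sq (hr : ∀ x, v x ≤ 1 → v (σ x - x) < 1) (h2 : v (2 : K) = 1)
    {α β a : K} (hα : α ^ 2 = a) (hβ : β ^ 2 = a) (ha : σ a = a) (hva : v a = 1) :
    σ β = β ∧ (β = α ∨ β = -α) :=
  ⟨fixed_of_sq_eq v σ hr h2 hβ ha hva, eq_or_eq_neg_of_sq_eq (hβ.trans hα.symm)⟩

/-- The valuation of a square root of a unit is `1`. -/
theorem val_eq_one_of_sq_eq {α a : K} (hα : α ^ 2 = a) (hva : v a = 1) : v α = 1 := by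
  have h1 : v α ^ 2 = 1 := by rw [← v.map_pow, hα, hva]
  exact (pow_eq_one_iff_of_nonneg zero_le two_ne_zero).mp h1

/-- More generally the valuation of an `n`-th root (`n ≠ 0`) of a unit is `1`. -/
theorem val_eq_one_of_pow_eq {x c : K} {n : ℕ} (hn0 : n ≠ 0) (hxn : x ^ n = c) (hvc : v c = 1) :
    v x = 1 := by
  have h1 : v x ^ n = 1 := by rw [← v.map_pow, hxn, hvc]
  exact (pow_eq_one_iff_of_nonneg zero_le hn0).mp h1

/-- `σ` preserves the property of being fixed under products and inverses (bookkeeping). -/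
theorem fixed_mul {x y : K} (hx : σ x = x) (hy : σ y = y) : σ (x * y) = x * y := by
  rw [map_mul, hx, hy]

theorem fixed_inv {x : K} (hx : σ x = x) : σ x⁻¹ = x⁻¹ := by rw [map_inv₀, hx]

theorem fixed_div {x y : K} (hx : σ x = x) (hy : σ y = y) : σ (x / y) = x / y := by
  rw [map_div₀, hx, hy]

end Fermat.Agent.T1B.ESide6
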